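/-
S44, node F, block FLift (owner helper102): Deligne-Serre lifting for a mod `p` eigenvector in the
`k`-span of the reductions of the integral weight 2 cusp forms of level `N`.

Everything is stated for coefficient functions `ψ : ℕ → k`.

* `Red f ψ`      : `f` has integral `q`-coefficients and `ψ` is their reduction to `k`;
* `fT ℓ`, `fU q` : the formal Hecke operators on coefficient functions;
* `exists_eigenform` : a nonzero `φ` in the `k`-span of the reductions, which is an eigenvector of the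
                   formal `T_ℓ` (`ℓ ∤ N`, `G ℓ`) with eigenvalue `a ℓ`, gives a normalised eigenform
                   `f` and a maximal ideal over `p` with `a_ℓ(f) ≡ a ℓ`.
-/
import Fermat.Agent.S22
import Fermat.Agent.S49.Basic
import Fermat.Agent.S49.EigenLift
import Fermat.Agent.S49.LyingOver
import Fermat.Agent.S49.Eigenform

set_option autoImplicit false

open ModularFormClass CongruenceSubgroup

namespace Fermat.Agent.S44.FLift

open Fermat.Agent.S49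

variable {N : ℕ} {k : Type*} [Field k]

/-- `ψ` is the reduction of the (integral) `q`-expansion of `f`. -/
def Red (f : CuspForm (Gamma0 N) 2) (ψ : ℕ → k) : Prop :=
  ∃ b : ℕ → ℤ, (∀ n, qCoeff ⇑f n = (b n : ℂ)) ∧ ∀ n, ψ n = (b n : k)

theorem Red.unique {f : CuspForm (Gamma0 N) 2} {ψ ψ' : ℕ → k} (h : Red f ψ) (h' : Red f ψ') :
    ψ = ψ' := by
  obtain ⟨b, hb, hψ⟩ := h
  obtain ⟨b', hb', hψ'⟩ := h'
  funext n
  have : b n = b' n := by
    have := (hb n).symm.trans (hb' n)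
    exact_mod_cast this
  rw [hψ, hψ', this]

/-- the formal Hecke operator `T_ℓ` (weight 2, `ℓ` prime to the level) -/
def fT (k : Type*) [Field k] (ℓ : ℕ) : (ℕ → k) →ₗ[k] (ℕ → k) where
  toFun ψ n := ψ (ℓ * n) + (ℓ : k) * (if ℓ ∣ n then ψ (n / ℓ) else 0)
  map_add' ψ ψ' := by
    funext n
    simp only [Pi.add_apply]
    split_ifs <;> ring
  map_smul' c ψ := by
    funext n
    simp only [Pi.smul_apply, smul_eq_mul, RingHom.id_apply]
    split_ifs <;> ring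

/-- the formal Hecke operator `U_q` -/
def fU (k : Type*) [Field k] (q : ℕ) : (ℕ → k) →ₗ[k] (ℕ → k) where
  toFun ψ n := ψ (q * n)
  map_add' ψ ψ' := rfl
  map_smul' c ψ := rfl

theorem fT_apply (ℓ : ℕ) (ψ : ℕ → k) (n : ℕ) :
    fT k ℓ ψ n = ψ (ℓ * n) + (ℓ : k) * (if ℓ ∣ n then ψ (n / ℓ) else 0) := rfl

theorem fU_apply (q : ℕ) (ψ : ℕ → k) (n : ℕ) : fU k q ψ n = ψ (q * n) := rfl

theorem Red.heckeT {ℓ : ℕ} (hℓ : ℓ.Prime) (hℓN : ¬ ℓ ∣ N) {f : CuspForm (Gamma0 N) 2} {ψ : ℕ → k}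
    (h : Red f ψ) : Red (CuspForm.heckeTLin 2 hℓ hℓN f) (fT k ℓ ψ) := by
  obtain ⟨b, hb, hψ⟩ := h
  refine ⟨fun n => b (ℓ * n) + ℓ * (if ℓ ∣ n then b (n / ℓ) else 0), fun n => ?_, fun n => ?_⟩
  · rw [qCoeff_heckeTLin, hb, hb]
    by_cases hd : ℓ ∣ n
    · simp only [if_pos hd]; push_cast; ring
    · simp only [if_neg hd]; push_cast; ring
  · rw [fT_apply, hψ, hψ]
    by_cases hd : ℓ ∣ n
    · simp only [if_pos hd]; push_cast; ring
    · simp only [if_neg hd]; push_cast; ring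

theorem Red.heckeU [NeZero N] {q : ℕ} (hq : q.Prime) (hqN : q ∣ N) {f : CuspForm (Gamma0 N) 2}
    {ψ : ℕ → k} (h : Red f ψ) : Red (CuspForm.heckeULin 2 hqN f) (fU k q ψ) := by
  obtain ⟨b, hb, hψ⟩ := h
  exact ⟨fun n => b (q * n), fun n => by rw [qCoeff_heckeULin hq, hb], fun n => by
    rw [fU_apply, hψ]⟩

theorem Red.zsmul (c : ℤ) {f : CuspForm (Gamma0 N) 2} {ψ : ℕ → k} (h : Red f ψ) :
    Red (c • f) ((c : k) • ψ) := by
  obtain ⟨b, hb, hψ⟩ := h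
  refine ⟨fun n => c * b n, fun n => ?_, fun n => ?_⟩
  · rw [qCoeff_zsmul, hb]; push_cast; ring
  · rw [Pi.smul_apply, hψ, smul_eq_mul]; push_cast; ring

theorem Red.add {f g : CuspForm (Gamma0 N) 2} {ψ χ : ℕ → k} (h : Red f ψ) (h' : Red g χ) :
    Red (f + g) (ψ + χ) := by
  obtain ⟨b, hb, hψ⟩ := h
  obtain ⟨c, hc, hχ⟩ := h'
  refine ⟨fun n => b n + c n, fun n => ?_, fun n => ?_⟩
  · rw [qCoeff_add, hb, hc]; push_cast; ring
  · rw [Pi.add_apply, hψ, hχ]; push_cast; ring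

/-- every element of the Hecke algebra acts on the reductions through a formal `k`-linear
operator -/
theorem exists_formal [NeZero N] {t : Module.End ℂ (CuspForm (Gamma0 N) 2)}
    (ht : t ∈ CuspForm.heckeAlgebra N 2 ∅) :
    ∃ τ : (ℕ → k) →ₗ[k] (ℕ → k), ∀ (f : CuspForm (Gamma0 N) 2) (ψ : ℕ → k), Red f ψ →
      Red (t f) (τ ψ) := by
  induction ht using Algebra.adjoin_induction with
  | mem x hx =>
    rcases hx with ⟨ℓ, hℓ, hℓN, -, rfl⟩ | ⟨q, hqN, hq, -, rfl⟩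
    · exact ⟨fT k ℓ, fun f ψ h => h.heckeT hℓ hℓN⟩
    · exact ⟨fU k q, fun f ψ h => h.heckeU hq hqN⟩
  | algebraMap r =>
    refine ⟨(r : k) • LinearMap.id, fun f ψ h => ?_⟩
    have h1 : (algebraMap ℤ (Module.End ℂ (CuspForm (Gamma0 N) 2)) r) f = r • f := by simp
    rw [h1]
    exact h.zsmul r
  | add x y _ _ hx hy =>
    obtain ⟨τ, hτ⟩ := hx
    obtain ⟨τ', hτ'⟩ := hy
    exact ⟨τ + τ', fun f ψ h => (hτ f ψ h).add (hτ' f ψ h)⟩
  | mul x y _ _ hx hy =>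
    obtain ⟨τ, hτ⟩ := hx
    obtain ⟨τ', hτ'⟩ := hy
    exact ⟨τ ∘ₗ τ', fun f ψ h => hτ _ _ (hτ' f ψ h)⟩

/-- the `k`-span of the reductions of the integral cusp forms -/
def redSpan (N : ℕ) (k : Type*) [Field k] : Submodule k (ℕ → k) :=
  Submodule.span k {ψ | ∃ f : CuspForm (Gamma0 N) 2, Red f ψ}

/-- the generators of the ideal of the eigensystem -/
def gens (N : ℕ) [NeZero N] (p : ℕ) (G : ℕ → Prop) (a : ℕ → ℤ) :
    Set (CuspForm.heckeAlgebra N 2 ∅) :=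
  {t | t = (p : CuspForm.heckeAlgebra N 2 ∅) ∨ ∃ (ℓ : ℕ) (hℓ : ℓ.Prime) (hℓN : ¬ ℓ ∣ N), G ℓ ∧
    t = CuspForm.heckeAlgebra.T hℓ hℓN (Set.notMem_empty ℓ) -
      ((a ℓ : ℤ) : CuspForm.heckeAlgebra N 2 ∅)}

theorem exists_formal_of_mem_span [NeZero N] (p : ℕ) [CharP k p] (G : ℕ → Prop) (a : ℕ → ℤ)
    (φ : ℕ → k)
    (heig : ∀ ℓ : ℕ, ℓ.Prime → ¬ ℓ ∣ N → G ℓ → fT k ℓ φ = (a ℓ : k) • φ)
    {t : CuspForm.heckeAlgebra N 2 ∅} (ht : t ∈ Ideal.span (gens N p G a)) :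
    ∃ τ : (ℕ → k) →ₗ[k] (ℕ → k), (∀ (f : CuspForm (Gamma0 N) 2) (ψ : ℕ → k), Red f ψ →
      Red ((t : Module.End ℂ (CuspForm (Gamma0 N) 2)) f) (τ ψ)) ∧ τ φ = 0 := by
  induction ht using Submodule.span_induction with
  | mem x hx =>
    rcases hx with rfl | ⟨ℓ, hℓ, hℓN, hG, rfl⟩
    · refine ⟨0, fun f ψ h => ?_, rfl⟩
      have h1 : (((p : ℕ) : CuspForm.heckeAlgebra N 2 ∅) :
          Module.End ℂ (CuspForm (Gamma0 N) 2)) f = (p : ℤ) • f := by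
        simp
      rw [h1]
      have := h.zsmul (p : ℤ)
      simpa using this
    · refine ⟨fT k ℓ - (a ℓ : k) • LinearMap.id, fun f ψ h => ?_, ?_⟩
      · have h1 : ((CuspForm.heckeAlgebra.T hℓ hℓN (Set.notMem_empty ℓ) -
            ((a ℓ : ℤ) : CuspForm.heckeAlgebra N 2 ∅) : CuspForm.heckeAlgebra N 2 ∅) :
            Module.End ℂ (CuspForm (Gamma0 N) 2)) f =
            CuspForm.heckeTLin 2 hℓ hℓN f + (-(a ℓ)) • f := by
          simp [CuspForm.heckeAlgebra.T, sub_eq_add_neg]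
        rw [h1]
        have := (h.heckeT hℓ hℓN).add (h.zsmul (-(a ℓ)))
        have h2 : (fT k ℓ - (a ℓ : k) • (LinearMap.id : (ℕ → k) →ₗ[k] (ℕ → k))) ψ =
            fT k ℓ ψ + ((-(a ℓ) : ℤ) : k) • ψ := by
          simp [sub_eq_add_neg]
        rw [h2]
        exact this
      · simp [heig ℓ hℓ hℓN hG]
  | zero =>
    refine ⟨0, fun f ψ h => ?_, rfl⟩
    have := h.zsmul 0
    simpa using this
  | add x y _ _ hx hy =>
    obtain ⟨τ, hτ, h0⟩ := hx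
    obtain ⟨τ', hτ', h0'⟩ := hy
    refine ⟨τ + τ', fun f ψ h => ?_, by simp [h0, h0']⟩
    have := (hτ f ψ h).add (hτ' f ψ h)
    simpa using this
  | smul s x _ hx =>
    obtain ⟨τ, hτ, h0⟩ := hx
    obtain ⟨σ, hσ⟩ := exists_formal (k := k) s.2
    refine ⟨σ ∘ₗ τ, fun f ψ h => ?_, by simp [h0]⟩
    have := hσ _ _ (hτ f ψ h)
    simpa using this

/-- **The maximal ideal of the eigensystem.** -/
theorem exists_maximal_ideal [NeZero N] (p : ℕ) [CharP k p] (G : ℕ → Prop) (a : ℕ → ℤ)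
    (φ : ℕ → k) (hφ : φ ∈ redSpan N k) (hφ0 : φ ≠ 0)
    (heig : ∀ ℓ : ℕ, ℓ.Prime → ¬ ℓ ∣ N → G ℓ → fT k ℓ φ = (a ℓ : k) • φ) :
    ∃ 𝔪 : Ideal (CuspForm.heckeAlgebra N 2 ∅), 𝔪.IsMaximal ∧
      ((p : ℕ) : CuspForm.heckeAlgebra N 2 ∅) ∈ 𝔪 ∧
      ∀ (ℓ : ℕ) (hℓ : ℓ.Prime) (hℓN : ¬ ℓ ∣ N), G ℓ →
        CuspForm.heckeAlgebra.T hℓ hℓN (Set.notMem_empty ℓ) -
          ((a ℓ : ℤ) : CuspForm.heckeAlgebra N 2 ∅) ∈ 𝔪 := by
  have hne : Ideal.span (gens N p G a) ≠ ⊤ := by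
    intro htop
    have h1 : (1 : CuspForm.heckeAlgebra N 2 ∅) ∈ Ideal.span (gens N p G a) :=
      htop ▸ Submodule.mem_top
    obtain ⟨τ, hτ, h0⟩ := exists_formal_of_mem_span p G a φ heig h1
    have hid : ∀ ψ ∈ redSpan N k, τ ψ = ψ := by
      intro ψ hψ
      induction hψ using Submodule.span_induction with
      | mem x hx =>
        obtain ⟨f, hf⟩ := hx
        have := hτ f x hf
        exact Red.unique (by simpa using this) hf
      | zero => simp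
      | add x y _ _ hx hy => rw [map_add, hx, hy]
      | smul c x _ hx => rw [map_smul, hx]
    exact hφ0 ((hid φ hφ).symm.trans h0)
  obtain ⟨𝔪, hmax, hle⟩ := Ideal.exists_le_maximal _ hne
  refine ⟨𝔪, hmax, hle (Ideal.subset_span (Or.inl rfl)), fun ℓ hℓ hℓN hG => ?_⟩
  exact hle (Ideal.subset_span (Or.inr ⟨ℓ, hℓ, hℓN, hG, rfl⟩))

/-- **FLift, coefficient form.** -/
theorem exists_eigenform [NeZero N] (p : ℕ) (hp : p.Prime) [CharP k p] (G : ℕ → Prop) (a : ℕ → ℤ)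
    (φ : ℕ → k) (hφ : φ ∈ redSpan N k) (hφ0 : φ ≠ 0)
    (heig : ∀ ℓ : ℕ, ℓ.Prime → ¬ ℓ ∣ N → G ℓ → fT k ℓ φ = (a ℓ : k) • φ) :
    ∃ (f : CuspForm (Gamma0 N) 2) (𝔪' : Ideal (integralClosure ℤ ℂ)), f.IsNormalizedEigenform ∧
      𝔪'.IsMaximal ∧ (p : integralClosure ℤ ℂ) ∈ 𝔪' ∧
      ∀ ℓ : ℕ, ℓ.Prime → ¬ ℓ ∣ N → G ℓ →
        ∃ c : integralClosure ℤ ℂ, (c : ℂ) = ModularFormClass.qCoeff f ℓ ∧
          c - ((a ℓ : ℤ) : integralClosure ℤ ℂ) ∈ 𝔪' := by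
  have : FiniteDimensional ℂ (CuspForm (Gamma0 N) 2) := finiteDimensional_cuspForm
  have : Module.Finite ℤ (CuspForm.heckeAlgebra N 2 ∅) := Fermat.Agent.S22.result N 2 ∅
  obtain ⟨𝔪, h𝔪, hpm, hT⟩ := exists_maximal_ideal p G a φ hφ hφ0 heig
  have : 𝔪.IsPrime := h𝔪.isPrime
  obtain ⟨v, χ, hv, hχ, hker⟩ := exists_eigenvector_ker_le
    (CuspForm.heckeAlgebra N 2 ∅).val.toRingHom Subtype.val_injective 𝔪
  obtain ⟨f, hf, hfχ⟩ := exists_normalizedEigenform_of_eigenvector v hv χ hχ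
  obtain ⟨𝔪', hmax, hp', hm'⟩ := exists_maximal_over χ 𝔪 hker p hp hpm
  refine ⟨f, 𝔪', hf, hmax, hp', fun ℓ hℓ hℓN hG => ?_⟩
  have hint : IsIntegral ℤ (χ (CuspForm.heckeAlgebra.T hℓ hℓN (Set.notMem_empty ℓ))) :=
    (Algebra.IsIntegral.isIntegral (R := ℤ)
      (CuspForm.heckeAlgebra.T hℓ hℓN (Set.notMem_empty ℓ) : CuspForm.heckeAlgebra N 2 ∅)).map
      χ.toIntAlgHom
  refine ⟨⟨_, hint⟩, (hfχ ℓ hℓ hℓN).symm, ?_⟩
  refine hm' _ (hT ℓ hℓ hℓN hG) _ ?_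
  simp

end Fermat.Agent.S44.FLift
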