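/-
S44, node F, block FLift (owner helper102): the sub-node `FLift` of `S44/F/Defs.lean`.
-/
import Fermat.Agent.S44.F.Defs
import Fermat.Agent.S44.F.Lift.Core

set_option autoImplicit false

open ModularFormClass CongruenceSubgroup

namespace Fermat.Agent.S44.F

/-- the coefficient function of a power series, as a linear map -/
noncomputable def coeffFun (k : Type*) [Field k] : PowerSeries k →ₗ[k] (ℕ → k) where
  toFun φ n := PowerSeries.coeff n φ
  map_add' φ ψ := by funext n; simp
  map_smul' c φ := by funext n; simp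

theorem coeffFun_apply {k : Type*} [Field k] (φ : PowerSeries k) (n : ℕ) :
    coeffFun k φ n = PowerSeries.coeff n φ := rfl

theorem coeffFun_mem_redSpan {k : Type*} [Field k] {M : ℕ} {φ : PowerSeries k}
    (hφ : φ ∈ S2bar k M) : coeffFun k φ ∈ FLift.redSpan M k := by
  induction hφ using Submodule.span_induction with
  | mem x hx =>
    obtain ⟨a, ⟨f, hf⟩, rfl⟩ := hx
    exact Submodule.subset_span ⟨f, a, hf, fun n => by rw [coeffFun_apply, coeff_redSeq]⟩
  | zero => rw [map_zero]; exact Submodule.zero_mem _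
  | add x y _ _ hx hy => rw [map_add]; exact Submodule.add_mem _ hx hy
  | smul c x _ hx => rw [map_smul]; exact Submodule.smul_mem _ c hx

/-- **FLift.** -/
theorem fLift : FLift := by
  intro p M _ hp k _ _ φ hφ0 hφ a G heig
  obtain ⟨f, 𝔪, hf, hmax, hpm, hc⟩ := FLift.exists_eigenform (N := M) (k := k) p hp (fun ℓ => ℓ ∈ G) a
    (coeffFun k φ) (coeffFun_mem_redSpan hφ)
    (fun h => hφ0 (PowerSeries.ext fun n => by
      have := congrFun h n
      simpa [coeffFun_apply] using this))
    (fun ℓ hℓ hℓM hG => by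
      funext n
      have := heig ℓ hG hℓ hℓM n
      rw [FLift.fT_apply, Pi.smul_apply, smul_eq_mul]
      exact this)
  exact ⟨f, 𝔪, hf, hmax, hpm, fun ℓ hG hℓ hℓM => hc ℓ hℓ hℓM hG⟩

end Fermat.Agent.S44.F
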